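import Fermat.Statements.S10
import Fermat.Agent.Lib.helper250_SophieGermain
import Fermat.Agent.Lib.helper908_PID7

/-!
Assembly for S10 (captain helper10).

* `result_of_flt` : the frozen S10 statement from FLT (coprime form) for exponents 5, 7, 13.
* `flt_coprime_of_parts` : coprime FLT for one exponent from Case I + Case II.
* `result_of_parts` : S10 from the three remaining inputs
    (generic Case II descent, PID for `ℚ(ζ₁₃)`, Kummer's lemma for 5, 7, 13),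
  Case I and the PID property for 5 and 7 being already available.
-/

set_option autoImplicit false

namespace Fermat.Agent.S10.helper10

open NumberField

/-- Frozen-statement wiring: S10 follows from FLT (coprime form) for the exponents 5, 7, 13. -/
theorem result_of_flt
    (flt5 : ∀ a b c : ℤ, a ≠ 0 → b ≠ 0 → c ≠ 0 → IsCoprime a b → a ^ 5 + b ^ 5 ≠ c ^ 5)
    (flt7 : ∀ a b c : ℤ, a ≠ 0 → b ≠ 0 → c ≠ 0 → IsCoprime a b → a ^ 7 + b ^ 7 ≠ c ^ 7)
    (flt13 : ∀ a b c : ℤ, a ≠ 0 → b ≠ 0 → c ≠ 0 → IsCoprime a b → a ^ 13 + b ^ 13 ≠ c ^ 13)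
    (P : FreyPackage) (hp : P.p = 5 ∨ P.p = 7 ∨ P.p = 13) :
    ¬ WeierstrassCurve.Affine.Point.HasGaloisStableCofixedLine
      (K := AlgebraicClosure ℚ) ℚ P.freyCurve P.p := by
  exfalso
  have h := P.hFLT
  have hcop : IsCoprime P.a P.b := by
    rw [Int.isCoprime_iff_gcd_eq_one]
    have := P.hgcdab
    rw [← Int.coe_gcd] at this
    exact_mod_cast this
  rcases hp with hp | hp | hp
  · rw [hp] at h; exact flt5 P.a P.b P.c P.ha0 P.hb0 P.hc0 hcop h
  · rw [hp] at h; exact flt7 P.a P.b P.c P.ha0 P.hb0 P.hc0 hcop h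
  · rw [hp] at h; exact flt13 P.a P.b P.c P.ha0 P.hb0 P.hc0 hcop h

/-- Coprime FLT for the exponent `p` from Case I and Case II. -/
theorem flt_coprime_of_parts (p : ℕ)
    (caseI : ∀ a b c : ℤ, IsCoprime a b → a ^ p + b ^ p = c ^ p → (p : ℤ) ∣ a * b * c)
    (caseII : ∀ a b c : ℤ, IsCoprime a b → a * b * c ≠ 0 → (p : ℤ) ∣ a * b * c →
      a ^ p + b ^ p ≠ c ^ p)
    (a b c : ℤ) (ha : a ≠ 0) (hb : b ≠ 0) (hc : c ≠ 0) (hab : IsCoprime a b) :
    a ^ p + b ^ p ≠ c ^ p := fun H =>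
  caseII a b c hab (mul_ne_zero (mul_ne_zero ha hb) hc) (caseI a b c hab H) H

/-- The shape of the generic Case II descent for the prime `p` (a `Prop`, used as a hypothesis). -/
def CaseIIGeneric (p : ℕ) : Prop :=
  ∀ (K : Type) [Field K] [NumberField K] [IsCyclotomicExtension {p} ℚ K]
    [IsPrincipalIdealRing (𝓞 K)],
    (∀ u : (𝓞 K)ˣ, ∀ n : ℤ, (p : 𝓞 K) ∣ (u : 𝓞 K) - n → ∃ v : (𝓞 K)ˣ, u = v ^ p) →
    ∀ a b c : ℤ, IsCoprime a b → a * b * c ≠ 0 → (p : ℤ) ∣ a * b * c → a ^ p + b ^ p ≠ c ^ p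

set_option backward.isDefEq.respectTransparency false in
/-- S10 from: the generic Case II descent at 5, 7, 13; the PID property of `ℤ[ζ₁₃]`;
Kummer's lemma at 5, 7, 13. -/
theorem result_of_parts
    (c5 : CaseIIGeneric 5) (c7 : CaseIIGeneric 7) (c13 : CaseIIGeneric 13)
    (pid13 : IsPrincipalIdealRing (𝓞 (CyclotomicField 13 ℚ)))
    (k5 : ∀ u : (𝓞 (CyclotomicField 5 ℚ))ˣ, ∀ n : ℤ,
      (5 : 𝓞 (CyclotomicField 5 ℚ)) ∣ (u : 𝓞 (CyclotomicField 5 ℚ)) - n →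
      ∃ v : (𝓞 (CyclotomicField 5 ℚ))ˣ, u = v ^ 5)
    (k7 : ∀ u : (𝓞 (CyclotomicField 7 ℚ))ˣ, ∀ n : ℤ,
      (7 : 𝓞 (CyclotomicField 7 ℚ)) ∣ (u : 𝓞 (CyclotomicField 7 ℚ)) - n →
      ∃ v : (𝓞 (CyclotomicField 7 ℚ))ˣ, u = v ^ 7)
    (k13 : ∀ u : (𝓞 (CyclotomicField 13 ℚ))ˣ, ∀ n : ℤ,
      (13 : 𝓞 (CyclotomicField 13 ℚ)) ∣ (u : 𝓞 (CyclotomicField 13 ℚ)) - n →
      ∃ v : (𝓞 (CyclotomicField 13 ℚ))ˣ, u = v ^ 13)
    (P : FreyPackage) (hp : P.p = 5 ∨ P.p = 7 ∨ P.p = 13) :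
    ¬ WeierstrassCurve.Affine.Point.HasGaloisStableCofixedLine
      (K := AlgebraicClosure ℚ) ℚ P.freyCurve P.p := by
  have pid5 : IsPrincipalIdealRing (𝓞 (CyclotomicField 5 ℚ)) :=
    IsCyclotomicExtension.Rat.five_pid (CyclotomicField 5 ℚ)
  have pid7 : IsPrincipalIdealRing (𝓞 (CyclotomicField 7 ℚ)) :=
    Fermat.Agent.Lib.helper908.seven_pid (CyclotomicField 7 ℚ)
  refine result_of_flt ?_ ?_ ?_ P hp
  · refine flt_coprime_of_parts 5 (fun a b c hab h => ?_) ?_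
    · exact_mod_cast Fermat.Agent.Lib.helper250.caseI_five a b c hab h
    · exact c5 (CyclotomicField 5 ℚ) (fun u n h => k5 u n (by simpa using h))
  · refine flt_coprime_of_parts 7 (fun a b c hab h => ?_) ?_
    · exact_mod_cast Fermat.Agent.Lib.helper250.caseI_seven a b c hab h
    · exact c7 (CyclotomicField 7 ℚ) (fun u n h => k7 u n (by simpa using h))
  · refine flt_coprime_of_parts 13 (fun a b c hab h => ?_) ?_
    · exact_mod_cast Fermat.Agent.Lib.helper250.caseI_thirteen a b c hab h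
    · exact c13 (CyclotomicField 13 ℚ) (fun u n h => k13 u n (by simpa using h))

end Fermat.Agent.S10.helper10
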