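import Mathlib

/-!
# The ring of integers of `ℚ(ζ₁₃)` is a principal ideal domain

Minkowski bound `< 308`; the only primes `p ≤ 307` having a prime ideal of norm `≤ 307` above
them are `3` (norm `27`), `13`, `53`, `79`, `131`, `157`, and for each of them we exhibit an
explicit generator of a prime ideal above it (Kummer-Dedekind + explicit cofactors).
-/

open NumberField Polynomial InfinitePlace Nat Real cyclotomic Ideal IsCyclotomicExtension.Rat
open NumberField.Ideal RingOfIntegers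

namespace Fermat.Agent.S10.helper550

section bound

variable (K : Type*) [Field K] [NumberField K]

/-- The Minkowski bound of `ℚ(ζ₁₃)` is `< 308`. -/
theorem minkowski_thirteen_lt [IsCyclotomicExtension {13} ℚ K] :
    (4 / π) ^ nrComplexPlaces K *
      ((Module.finrank ℚ K)! / (Module.finrank ℚ K) ^ (Module.finrank ℚ K) *
        √|(discr K : ℝ)|) < 308 := by
  have h13 : Fact (Nat.Prime 13) := ⟨by norm_num⟩
  rw [discr_prime 13 K, IsCyclotomicExtension.finrank (n := 13) K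
    (irreducible_rat (by simp)), nrComplexPlaces_eq_totient_div_two 13, totient_prime
      h13.out]
  have hsqrt : √|(((-1 : ℤ) ^ ((13 - 1) / 2) * (13 : ℕ) ^ (13 - 2) : ℤ) : ℝ)| < 1338716 := by
    rw [Real.sqrt_lt' (by norm_num)]
    norm_num
  have hpi0 : (4 : ℝ) / π < 4 / 3.14 := by
    apply div_lt_div_of_pos_left (by norm_num) (by norm_num) Real.pi_gt_d2
  have hpi : (4 / π) ^ ((13 - 1) / 2) < (4 / 3.14 : ℝ) ^ 6 := by
    have : (13 - 1) / 2 = 6 := by norm_num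
    rw [this]
    exact pow_lt_pow_left₀ hpi0 (by positivity) (by norm_num)
  have h12 : ((13 - 1 : ℕ)! : ℝ) / ((13 - 1 : ℕ) : ℝ) ^ (13 - 1) =
      479001600 / 8916100448256 := by
    norm_num [Nat.factorial]
  rw [h12]
  calc (4 / π) ^ ((13 - 1) / 2) * (479001600 / 8916100448256 *
        √|(((-1 : ℤ) ^ ((13 - 1) / 2) * (13 : ℕ) ^ (13 - 2) : ℤ) : ℝ)|)
      ≤ (4 / 3.14) ^ 6 * (479001600 / 8916100448256 * 1338716) := by
        gcongr
      _ < 308 := by norm_num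

end bound

section arith

theorem prime_pow_mod_thirteen {p d : ℕ} (hp : p.Prime) (hd : 0 < d) (hle : p ^ d ≤ 307)
    (h : p ^ d % 13 = 1) : p = 3 ∨ p = 53 ∨ p = 79 ∨ p = 131 ∨ p = 157 := by
  have hp2 := hp.two_le
  rcases Nat.lt_or_ge d 2 with hd1 | hd2
  · have hd1' : d = 1 := by omega
    subst hd1'
    rw [pow_one] at hle h
    obtain ⟨k, rfl⟩ : ∃ k, p = 13 * k + 1 := ⟨p / 13, by omega⟩
    have hk : k ≤ 23 := by omega
    interval_cases k <;> first | omega | (exfalso; revert hp; norm_num)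
  · have hp17 : p ≤ 17 := by
      by_contra hc
      have hc' : 18 ≤ p := by omega
      have h18 : 18 ^ 2 ≤ p ^ d :=
        le_trans (Nat.pow_le_pow_left hc' 2) (Nat.pow_le_pow_right (by omega) hd2)
      omega
    have hd8 : d ≤ 8 := by
      by_contra hc
      have hc' : 9 ≤ d := by omega
      have h29 : 2 ^ 9 ≤ p ^ d :=
        le_trans (Nat.pow_le_pow_right (by norm_num) hc') (Nat.pow_le_pow_left hp2 d)
      omega
    interval_cases p <;> first
      | (exfalso; revert hp; norm_num; done)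
      | (interval_cases d <;> simp_all)

theorem lt_pow_orderOf {p : ℕ} (hp : p.Prime) (h3 : p ≠ 3) (h13 : p ≠ 13) (h53 : p ≠ 53)
    (h79 : p ≠ 79) (h131 : p ≠ 131) (h157 : p ≠ 157) : 307 < p ^ orderOf (p : ZMod 13) := by
  by_contra hle
  have hle' : p ^ orderOf (p : ZMod 13) ≤ 307 := by omega
  have hcop : p.Coprime 13 := (Nat.coprime_primes hp (by norm_num)).mpr h13
  have hpos : 0 < orderOf (p : ZMod 13) := by
    have := orderOf_pos (ZMod.unitOfCoprime p hcop)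
    rwa [← orderOf_units, ZMod.coe_unitOfCoprime] at this
  have h1 : ((p ^ orderOf (p : ZMod 13) : ℕ) : ZMod 13) = ((1 : ℕ) : ZMod 13) := by
    rw [Nat.cast_pow, pow_orderOf_eq_one, Nat.cast_one]
  have h2 : p ^ orderOf (p : ZMod 13) % 13 = 1 := by
    have := (ZMod.natCast_eq_natCast_iff' _ 1 13).mp h1
    simpa using this
  rcases prime_pow_mod_thirteen hp hpos hle' h2 with h | h | h | h | h <;> contradiction

theorem span_pair_eq_span_singleton {R : Type*} [CommRing R] {q t α : R} (β γ u v : R)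
    (h1 : q = α * β) (h2 : t = α * γ) (h3 : α = u * q + v * t) :
    span {q, t} = span {α} := by
  apply le_antisymm
  · rw [span_le]
    rintro x (rfl | rfl)
    · exact mem_span_singleton.mpr ⟨β, h1⟩
    · exact mem_span_singleton.mpr ⟨γ, h2⟩
  · rw [span_singleton_le_iff_mem, mem_span_pair]
    exact ⟨u, v, h3.symm⟩

theorem cubic_no_root : ∀ x : ZMod 3, x ^ 3 - x - 1 ≠ 0 := by decide

end arith

section primes

variable {K : Type*} [Field K] [NumberField K] [hK : IsCyclotomicExtension {13} ℚ K]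
  {ζ : K} (hζ : IsPrimitiveRoot ζ 13)

include hK in
theorem not_dvd_exponent (q : ℕ) [hq : Fact q.Prime] : ¬ q ∣ exponent hζ.toInteger := by
  rw [exponent_eq_one_iff.mpr <| adjoin_singleton_eq_top hζ]
  exact hq.out.not_dvd_one

omit hK in
theorem minpoly_toInteger : minpoly ℤ hζ.toInteger = cyclotomic 13 ℤ := by
  rw [cyclotomic_eq_minpoly hζ (by norm_num), ← RingOfIntegers.minpoly_coe hζ.toInteger]
  rfl

omit [NumberField K] hK in
theorem geom_sum_theta :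
    1 + hζ.toInteger + hζ.toInteger ^ 2 + hζ.toInteger ^ 3 + hζ.toInteger ^ 4 + hζ.toInteger ^ 5
      + hζ.toInteger ^ 6 + hζ.toInteger ^ 7 + hζ.toInteger ^ 8 + hζ.toInteger ^ 9
      + hζ.toInteger ^ 10 + hζ.toInteger ^ 11 + hζ.toInteger ^ 12 = 0 := by
  have h := hζ.toInteger_isPrimitiveRoot.geom_sum_eq_zero (by norm_num : 1 < 13)
  simpa [Finset.sum_range_succ] using h

include hK in
theorem span_pair_mem_primesOver (q : ℕ) (r : ℤ)
    (hr : ∑ i ∈ Finset.range 13, (r : ZMod q) ^ i = 0) [hq : Fact q.Prime] :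
    span {(q : 𝓞 K), hζ.toInteger - (r : 𝓞 K)} ∈ primesOver (span {(q : ℤ)}) (𝓞 K) := by
  have h13 : Fact (Nat.Prime 13) := ⟨by norm_num⟩
  have hexp := not_dvd_exponent hζ q
  have hQ : Polynomial.map (Int.castRingHom (ZMod q)) (X - C r) ∈
      monicFactorsMod hζ.toInteger q := by
    rw [Multiset.mem_toFinset, Polynomial.mem_normalizedFactors_iff
      (map_monic_ne_zero (minpoly.monic hζ.toInteger.isIntegral))]
    refine ⟨?_, ?_, ?_⟩
    · rw [Polynomial.map_sub, map_X, map_C]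
      exact irreducible_X_sub_C _
    · rw [Polynomial.map_sub, map_X, map_C]
      exact monic_X_sub_C _
    · rw [Polynomial.map_sub, map_X, map_C, dvd_iff_isRoot, minpoly_toInteger hζ,
        map_cyclotomic_int, cyclotomic_prime, IsRoot, eval_finsetSum]
      simpa using hr
  have h := primesOverSpanEquivMonicFactorsMod_symm_apply_eq_span hexp hQ
  have h2 := ((primesOverSpanEquivMonicFactorsMod hexp).symm
    ⟨Polynomial.map (Int.castRingHom (ZMod q)) (X - C r), hQ⟩).2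
  rw [h] at h2
  simpa using h2

variable (K) in
include hK in
theorem exists_principal_53 :
    ∃ P ∈ primesOver (span {((53 : ℕ) : ℤ)}) (𝓞 K), Submodule.IsPrincipal P := by
  have hq : Fact (Nat.Prime 53) := ⟨by norm_num⟩
  have hζ := IsCyclotomicExtension.zeta_spec 13 ℚ K
  refine ⟨_, span_pair_mem_primesOver hζ 53 36 (by decide), ?_⟩
  have hΦ := geom_sum_theta hζ
  set θ := hζ.toInteger with hθ
  have key : span {((53 : ℕ) : 𝓞 K), θ - ((36 : ℤ) : 𝓞 K)} = span {1 + θ + θ ^ 3} := by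
    apply span_pair_eq_span_singleton (u := 881)
      (β := 1 - 24 * θ - 35 * θ ^ 2 - 25 * θ ^ 3 - 10 * θ ^ 4 - 14 * θ ^ 5 - 20 * θ ^ 6 - 29 * θ ^ 7 - 16 * θ ^ 8 - 23 * θ ^ 9 - 7 * θ ^ 10 - 36 * θ ^ 11)
      (γ := 17 * θ + 24 * θ ^ 2 + 17 * θ ^ 3 + 7 * θ ^ 4 + 10 * θ ^ 5 + 14 * θ ^ 6 + 20 * θ ^ 7 + 11 * θ ^ 8 + 16 * θ ^ 9 + 5 * θ ^ 10 + 25 * θ ^ 11)
      (v := 1297 + 36 * θ + θ ^ 2)
    · push_cast
      linear_combination (-(-52 + 29 * θ - 36 * θ ^ 2)) * hΦ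
    · push_cast
      linear_combination (-(36 - 20 * θ + 25 * θ ^ 2)) * hΦ
    · push_cast
      ring
  rw [key]
  exact ⟨⟨_, rfl⟩⟩

variable (K) in
include hK in
theorem exists_principal_79 :
    ∃ P ∈ primesOver (span {((79 : ℕ) : ℤ)}) (𝓞 K), Submodule.IsPrincipal P := by
  have hq : Fact (Nat.Prime 79) := ⟨by norm_num⟩
  have hζ := IsCyclotomicExtension.zeta_spec 13 ℚ K
  refine ⟨_, span_pair_mem_primesOver hζ 79 64 (by decide), ?_⟩
  have hΦ := geom_sum_theta hζ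
  set θ := hζ.toInteger with hθ
  have key : span {((79 : ℕ) : 𝓞 K), θ - ((64 : ℤ) : 𝓞 K)} = span {1 + θ - θ ^ 4} := by
    apply span_pair_eq_span_singleton (u := -212369)
      (β := 24 - 25 * θ - 27 * θ ^ 2 + 10 * θ ^ 3 - 3 * θ ^ 4 - 39 * θ ^ 5 - 5 * θ ^ 6 - 2 * θ ^ 7 - 18 * θ ^ 8 - 38 * θ ^ 9 + 16 * θ ^ 10 - 35 * θ ^ 11)
      (γ := -19 + 21 * θ + 22 * θ ^ 2 - 8 * θ ^ 3 + 3 * θ ^ 4 + 32 * θ ^ 5 + 4 * θ ^ 6 + 2 * θ ^ 7 + 15 * θ ^ 8 + 31 * θ ^ 9 - 13 * θ ^ 10 + 29 * θ ^ 11)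
      (v := -262143 - 4096 * θ - 64 * θ ^ 2 - θ ^ 3)
    · push_cast
      linear_combination (-(-55 + 54 * θ - 51 * θ ^ 2 + 35 * θ ^ 3)) * hΦ
    · push_cast
      linear_combination (-(45 - 44 * θ + 42 * θ ^ 2 - 29 * θ ^ 3)) * hΦ
    · push_cast
      ring
  rw [key]
  exact ⟨⟨_, rfl⟩⟩

variable (K) in
include hK in
theorem exists_principal_131 :
    ∃ P ∈ primesOver (span {((131 : ℕ) : ℤ)}) (𝓞 K), Submodule.IsPrincipal P := by
  have hq : Fact (Nat.Prime 131) := ⟨by norm_num⟩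
  have hζ := IsCyclotomicExtension.zeta_spec 13 ℚ K
  refine ⟨_, span_pair_mem_primesOver hζ 131 80 (by decide), ?_⟩
  have hΦ := geom_sum_theta hζ
  set θ := hζ.toInteger with hθ
  have key : span {((131 : ℕ) : 𝓞 K), θ - ((80 : ℤ) : 𝓞 K)} = span {1 - θ - θ ^ 3} := by
    apply span_pair_eq_span_singleton (u := -3909)
      (β := 111 + 78 * θ + 17 * θ ^ 2 + 67 * θ ^ 3 + 84 * θ ^ 4 + 40 * θ ^ 5 + 46 * θ ^ 6 + 69 * θ ^ 7 + 48 * θ ^ 8 + 33 * θ ^ 9 + 41 * θ ^ 10 + 28 * θ ^ 11)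
      (γ := -68 - 47 * θ - 10 * θ ^ 2 - 41 * θ ^ 3 - 51 * θ ^ 4 - 24 * θ ^ 5 - 28 * θ ^ 6 - 42 * θ ^ 7 - 29 * θ ^ 8 - 20 * θ ^ 9 - 25 * θ ^ 10 - 17 * θ ^ 11)
      (v := -6401 - 80 * θ - θ ^ 2)
    · push_cast
      linear_combination (-(-20 - 13 * θ - 28 * θ ^ 2)) * hΦ
    · push_cast
      linear_combination (-(12 + 8 * θ + 17 * θ ^ 2)) * hΦ
    · push_cast
      ring
  rw [key]
  exact ⟨⟨_, rfl⟩⟩

variable (K) in
include hK in
theorem exists_principal_157 :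
    ∃ P ∈ primesOver (span {((157 : ℕ) : ℤ)}) (𝓞 K), Submodule.IsPrincipal P := by
  have hq : Fact (Nat.Prime 157) := ⟨by norm_num⟩
  have hζ := IsCyclotomicExtension.zeta_spec 13 ℚ K
  refine ⟨_, span_pair_mem_primesOver hζ 157 75 (by decide), ?_⟩
  have hΦ := geom_sum_theta hζ
  set θ := hζ.toInteger with hθ
  have key : span {((157 : ℕ) : 𝓞 K), θ - ((75 : ℤ) : 𝓞 K)} = span {1 - θ + θ ^ 2 + θ ^ 4} := by
    apply span_pair_eq_span_singleton (u := 201568)
      (β := 89 + 86 * θ + 42 * θ ^ 2 + 77 * θ ^ 3 + 67 * θ ^ 4 + 25 * θ ^ 5 + 37 * θ ^ 6 + 56 * θ ^ 7 + 73 * θ ^ 8 + 113 * θ ^ 9 + 124 * θ ^ 10 + 76 * θ ^ 11)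
      (γ := -43 - 41 * θ - 20 * θ ^ 2 - 37 * θ ^ 3 - 32 * θ ^ 4 - 12 * θ ^ 5 - 18 * θ ^ 6 - 27 * θ ^ 7 - 35 * θ ^ 8 - 54 * θ ^ 9 - 59 * θ ^ 10 - 36 * θ ^ 11)
      (v := 421949 + 5626 * θ + 75 * θ ^ 2 + θ ^ 3)
    · push_cast
      linear_combination (-(-68 + 65 * θ + 48 * θ ^ 2 + 76 * θ ^ 3)) * hΦ
    · push_cast
      linear_combination (-(32 - 31 * θ - 23 * θ ^ 2 - 36 * θ ^ 3)) * hΦ
    · push_cast
      ring
  rw [key]
  exact ⟨⟨_, rfl⟩⟩

include hK in
theorem span_cubic_mem_primesOver :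
    span {((3 : ℕ) : 𝓞 K), hζ.toInteger ^ 3 - hζ.toInteger - 1} ∈
      primesOver (span {((3 : ℕ) : ℤ)}) (𝓞 K) := by
  have h13 : Fact (Nat.Prime 13) := ⟨by norm_num⟩
  have h3 : Fact (Nat.Prime 3) := ⟨by norm_num⟩
  have hexp := not_dvd_exponent hζ 3
  have hmap : Polynomial.map (Int.castRingHom (ZMod 3)) (X ^ 3 - X - 1 : ℤ[X]) =
      (X ^ 3 - X - 1 : (ZMod 3)[X]) := by
    simp
  have hmonic : (X ^ 3 - X - 1 : (ZMod 3)[X]).Monic := by monicity!
  have hdeg : (X ^ 3 - X - 1 : (ZMod 3)[X]).natDegree = 3 := by compute_degree!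
  have hQ : Polynomial.map (Int.castRingHom (ZMod 3)) (X ^ 3 - X - 1 : ℤ[X]) ∈
      monicFactorsMod hζ.toInteger 3 := by
    rw [Multiset.mem_toFinset, Polynomial.mem_normalizedFactors_iff
      (map_monic_ne_zero (minpoly.monic hζ.toInteger.isIntegral)), hmap]
    refine ⟨?_, hmonic, ?_⟩
    · rw [hmonic.irreducible_iff_roots_eq_zero_of_degree_le_three (by omega) (by omega)]
      rw [Multiset.eq_zero_iff_forall_notMem]
      intro x hx
      have hx' := (mem_roots hmonic.ne_zero).mp hx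
      simp only [IsRoot, eval_sub, eval_pow, eval_X, eval_one] at hx'
      exact cubic_no_root x hx'
    · rw [minpoly_toInteger hζ]
      have hid : cyclotomic 13 ℤ = (X ^ 3 - X - 1) * (20 + 15 * X + 11 * X ^ 2 + 8 * X ^ 3
          + 6 * X ^ 4 + 4 * X ^ 5 + 3 * X ^ 6 + 2 * X ^ 7 + X ^ 8 + X ^ 9)
          + 3 * (7 + 12 * X + 9 * X ^ 2) := by
        rw [cyclotomic_prime]
        simp only [Finset.sum_range_succ, Finset.sum_range_zero]
        ring
      have h30 : (3 : (ZMod 3)[X]) = 0 := by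
        have : ((3 : ℕ) : (ZMod 3)[X]) = 0 := CharP.cast_eq_zero _ 3
        simpa using this
      refine ⟨Polynomial.map (Int.castRingHom (ZMod 3)) (20 + 15 * X + 11 * X ^ 2 + 8 * X ^ 3
          + 6 * X ^ 4 + 4 * X ^ 5 + 3 * X ^ 6 + 2 * X ^ 7 + X ^ 8 + X ^ 9), ?_⟩
      rw [hid, Polynomial.map_add, Polynomial.map_mul, Polynomial.map_mul, hmap]
      have : Polynomial.map (Int.castRingHom (ZMod 3)) (3 : ℤ[X]) = 0 := by
        simp [h30]
      rw [this, zero_mul, add_zero]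
  have h := primesOverSpanEquivMonicFactorsMod_symm_apply_eq_span hexp hQ
  have h2 := ((primesOverSpanEquivMonicFactorsMod hexp).symm
    ⟨Polynomial.map (Int.castRingHom (ZMod 3)) (X ^ 3 - X - 1 : ℤ[X]), hQ⟩).2
  rw [h] at h2
  simpa using h2

variable (K) in
include hK in
theorem exists_principal_3 :
    ∃ P ∈ primesOver (span {((3 : ℕ) : ℤ)}) (𝓞 K), Submodule.IsPrincipal P := by
  have hζ := IsCyclotomicExtension.zeta_spec 13 ℚ K
  refine ⟨_, span_cubic_mem_primesOver hζ, ?_⟩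
  have hΦ := geom_sum_theta hζ
  set θ := hζ.toInteger with hθ
  have key : span {((3 : ℕ) : 𝓞 K), θ ^ 3 - θ - 1} = span {θ ^ 3 - θ - 1} := by
    apply span_pair_eq_span_singleton (u := 0) (v := 1) (γ := 1)
      (β := 1 + θ ^ 2 + θ ^ 3 + 2 * θ ^ 5 + θ ^ 7 + 2 * θ ^ 8 - θ ^ 9 + 3 * θ ^ 10)
    · push_cast
      linear_combination (-(-4 + 3 * θ)) * hΦ
    · ring
    · ring
  rw [key]
  exact ⟨⟨_, rfl⟩⟩

variable (K) in
include hK in
theorem exists_principal_13 :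
    ∃ P ∈ primesOver (span {((13 : ℕ) : ℤ)}) (𝓞 K), Submodule.IsPrincipal P := by
  have h13 : Fact (Nat.Prime 13) := ⟨by norm_num⟩
  have hζ := IsCyclotomicExtension.zeta_spec 13 ℚ K
  have hK' : IsCyclotomicExtension {13 ^ (0 + 1)} ℚ K := by simpa using hK
  have hζ' : IsPrimitiveRoot (IsCyclotomicExtension.zeta 13 ℚ K) (13 ^ (0 + 1)) := by
    rw [zero_add, pow_one]
    exact hζ
  exact ⟨span {hζ'.toInteger - 1}, ⟨isPrime_span_zeta_sub_one 13 0 hζ',
    liesOver_span_zeta_sub_one 13 0 hζ'⟩, ⟨⟨_, rfl⟩⟩⟩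

end primes

/-- The ring of integers of the `13`-th cyclotomic field is a principal ideal domain. -/
theorem thirteen_pid (K : Type*) [Field K] [NumberField K] [IsCyclotomicExtension {13} ℚ K] :
    IsPrincipalIdealRing (𝓞 K) := by
  have hgal : IsGalois ℚ K := IsCyclotomicExtension.isGalois {13} ℚ K
  apply RingOfIntegers.isPrincipalIdealRing_of_isPrincipal_of_lt_or_isPrincipal_of_mem_primesOver_of_mem_Icc
  intro p _ hprime
  have hB : ⌊(4 / π) ^ nrComplexPlaces K *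
      ((Module.finrank ℚ K)! / (Module.finrank ℚ K) ^ (Module.finrank ℚ K) *
        √|(discr K : ℝ)|)⌋₊ ≤ 307 := by
    have := minkowski_thirteen_lt K
    have h2 : ⌊(4 / π) ^ nrComplexPlaces K *
      ((Module.finrank ℚ K)! / (Module.finrank ℚ K) ^ (Module.finrank ℚ K) *
        √|(discr K : ℝ)|)⌋₊ < 308 := (Nat.floor_lt (by positivity)).mpr (by exact_mod_cast this)
    omega
  by_cases h3 : p = 3
  · subst h3
    obtain ⟨P, hP, hprin⟩ := exists_principal_3 K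
    exact ⟨P, hP, Or.inr hprin⟩
  by_cases h13 : p = 13
  · subst h13
    obtain ⟨P, hP, hprin⟩ := exists_principal_13 K
    exact ⟨P, hP, Or.inr hprin⟩
  by_cases h53 : p = 53
  · subst h53
    obtain ⟨P, hP, hprin⟩ := exists_principal_53 K
    exact ⟨P, hP, Or.inr hprin⟩
  by_cases h79 : p = 79
  · subst h79
    obtain ⟨P, hP, hprin⟩ := exists_principal_79 K
    exact ⟨P, hP, Or.inr hprin⟩
  by_cases h131 : p = 131
  · subst h131
    obtain ⟨P, hP, hprin⟩ := exists_principal_131 K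
    exact ⟨P, hP, Or.inr hprin⟩
  by_cases h157 : p = 157
  · subst h157
    obtain ⟨P, hP, hprin⟩ := exists_principal_157 K
    exact ⟨P, hP, Or.inr hprin⟩
  have hfact : Fact p.Prime := ⟨hprime⟩
  obtain ⟨⟨P, hP1, hP2⟩⟩ := (span {(p : ℤ)}).nonempty_primesOver (S := 𝓞 K)
  refine ⟨P, ⟨hP1, hP2⟩, Or.inl ?_⟩
  have hm : ¬ p ∣ 13 := by
    intro hdvd
    exact h13 ((Nat.prime_dvd_prime_iff_eq hprime (by norm_num)).mp hdvd)
  rw [inertiaDeg_eq_of_not_dvd p K P hm]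
  exact lt_of_le_of_lt hB (lt_pow_orderOf hprime h3 h13 h53 h79 h131 h157)

end Fermat.Agent.S10.helper550
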