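/-
helper2110 (team S10): the ring of integers of the 13-th cyclotomic field is a PID
(and likewise for the 7-th cyclotomic field).

Route: Mathlib's Minkowski-bound criterion (Galois version).  For `ℚ(ζ₁₃)` the Minkowski
bound is `≈ 306.4`, so only primes `p ≤ 306` matter.  The inertia degree of `p ≠ 13` is the
order of `p` modulo `13`, so `p ^ f > 306` unless `p ∈ {3, 53, 79, 131, 157}`; for these we
exhibit explicit generators of one prime above `p`: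
`1 + ζ - ζ³` (norm 27), `1 + ζ + ζ³` (norm 53), `1 + ζ - ζ⁴` (norm 79),
`1 - ζ - ζ³` (norm 131), `1 - ζ + ζ² + ζ⁴` (norm 157).
-/
import Mathlib

set_option autoImplicit false

namespace Fermat.Agent.S10.helper2110

open NumberField Polynomial Ideal

lemma fact_prime_thirteen : Fact (Nat.Prime 13) := ⟨by norm_num⟩

attribute [local instance] fact_prime_thirteen

section Identities

variable {R : Type*} [CommRing R] (ζ : R)

lemma span_fiftyThree (hΦ : 1 + ζ + ζ ^ 2 + ζ ^ 3 + ζ ^ 4 + ζ ^ 5 + ζ ^ 6 + ζ ^ 7 + ζ ^ 8 + ζ ^ 9 + ζ ^ 10 + ζ ^ 11 + ζ ^ 12 = 0) :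
    Ideal.span {((53 : ℕ) : R), ζ - ((-17 : ℤ) : R)} = Ideal.span {1 + ζ + ζ ^ 3} := by
  apply le_antisymm
  · rw [Ideal.span_le, Set.insert_subset_iff, Set.singleton_subset_iff]
    refine ⟨Ideal.mem_span_singleton.mpr ⟨1 - 24 * ζ - 35 * ζ ^ 2 - 25 * ζ ^ 3 - 10 * ζ ^ 4 - 14 * ζ ^ 5 - 20 * ζ ^ 6 - 29 * ζ ^ 7 - 16 * ζ ^ 8 - 23 * ζ ^ 9 - 7 * ζ ^ 10 - 36 * ζ ^ 11, ?_⟩,
      Ideal.mem_span_singleton.mpr ⟨1 - 7 * ζ - 11 * ζ ^ 2 - 8 * ζ ^ 3 - 3 * ζ ^ 4 - 4 * ζ ^ 5 - 6 * ζ ^ 6 - 9 * ζ ^ 7 - 5 * ζ ^ 8 - 7 * ζ ^ 9 - 2 * ζ ^ 10 - 11 * ζ ^ 11, ?_⟩⟩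
    · push_cast
      linear_combination (-(-52 + 29 * ζ - 36 * ζ ^ 2)) * hΦ
    · push_cast
      linear_combination (-(-16 + 9 * ζ - 11 * ζ ^ 2)) * hΦ
  · rw [Ideal.span_le, Set.singleton_subset_iff]
    refine Ideal.mem_span_pair.mpr ⟨-93, 290 - 17 * ζ + ζ ^ 2, ?_⟩
    push_cast
    ring

lemma three_eq_mul (hΦ : 1 + ζ + ζ ^ 2 + ζ ^ 3 + ζ ^ 4 + ζ ^ 5 + ζ ^ 6 + ζ ^ 7 + ζ ^ 8 + ζ ^ 9 + ζ ^ 10 + ζ ^ 11 + ζ ^ 12 = 0) :
    (3 : R) = (1 + ζ - ζ ^ 3) * (-1 - ζ ^ 2 - ζ ^ 3 - 2 * ζ ^ 5 - ζ ^ 7 - 2 * ζ ^ 8 + ζ ^ 9 - 3 * ζ ^ 10) := by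
  linear_combination (-(-4 + 3 * ζ)) * hΦ

lemma span_oneThirtyOne (hΦ : 1 + ζ + ζ ^ 2 + ζ ^ 3 + ζ ^ 4 + ζ ^ 5 + ζ ^ 6 + ζ ^ 7 + ζ ^ 8 + ζ ^ 9 + ζ ^ 10 + ζ ^ 11 + ζ ^ 12 = 0) :
    Ideal.span {((131 : ℕ) : R), ζ - ((-51 : ℤ) : R)} = Ideal.span {1 - ζ - ζ ^ 3} := by
  apply le_antisymm
  · rw [Ideal.span_le, Set.insert_subset_iff, Set.singleton_subset_iff]
    refine ⟨Ideal.mem_span_singleton.mpr ⟨111 + 78 * ζ + 17 * ζ ^ 2 + 67 * ζ ^ 3 + 84 * ζ ^ 4 + 40 * ζ ^ 5 + 46 * ζ ^ 6 + 69 * ζ ^ 7 + 48 * ζ ^ 8 + 33 * ζ ^ 9 + 41 * ζ ^ 10 + 28 * ζ ^ 11, ?_⟩,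
      Ideal.mem_span_singleton.mpr ⟨43 + 31 * ζ + 7 * ζ ^ 2 + 26 * ζ ^ 3 + 33 * ζ ^ 4 + 16 * ζ ^ 5 + 18 * ζ ^ 6 + 27 * ζ ^ 7 + 19 * ζ ^ 8 + 13 * ζ ^ 9 + 16 * ζ ^ 10 + 11 * ζ ^ 11, ?_⟩⟩
    · push_cast
      linear_combination (-(-20 - 13 * ζ - 28 * ζ ^ 2)) * hΦ
    · push_cast
      linear_combination (-(-8 - 5 * ζ - 11 * ζ ^ 2)) * hΦ
  · rw [Ideal.span_le, Set.singleton_subset_iff]
    refine Ideal.mem_span_pair.mpr ⟨1013, -2602 + 51 * ζ - ζ ^ 2, ?_⟩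
    push_cast
    ring

lemma span_seventyNine (hΦ : 1 + ζ + ζ ^ 2 + ζ ^ 3 + ζ ^ 4 + ζ ^ 5 + ζ ^ 6 + ζ ^ 7 + ζ ^ 8 + ζ ^ 9 + ζ ^ 10 + ζ ^ 11 + ζ ^ 12 = 0) :
    Ideal.span {((79 : ℕ) : R), ζ - ((-15 : ℤ) : R)} = Ideal.span {1 + ζ - ζ ^ 4} := by
  apply le_antisymm
  · rw [Ideal.span_le, Set.insert_subset_iff, Set.singleton_subset_iff]
    refine ⟨Ideal.mem_span_singleton.mpr ⟨24 - 25 * ζ - 27 * ζ ^ 2 + 10 * ζ ^ 3 - 3 * ζ ^ 4 - 39 * ζ ^ 5 - 5 * ζ ^ 6 - 2 * ζ ^ 7 - 18 * ζ ^ 8 - 38 * ζ ^ 9 + 16 * ζ ^ 10 - 35 * ζ ^ 11, ?_⟩,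
      Ideal.mem_span_singleton.mpr ⟨5 - 4 * ζ - 5 * ζ ^ 2 + 2 * ζ ^ 3 - 7 * ζ ^ 5 - ζ ^ 6 - 3 * ζ ^ 8 - 7 * ζ ^ 9 + 3 * ζ ^ 10 - 6 * ζ ^ 11, ?_⟩⟩
    · push_cast
      linear_combination (-(-55 + 54 * ζ - 51 * ζ ^ 2 + 35 * ζ ^ 3)) * hΦ
    · push_cast
      linear_combination (-(-10 + 10 * ζ - 9 * ζ ^ 2 + 6 * ζ ^ 3)) * hΦ
  · rw [Ideal.span_le, Set.singleton_subset_iff]
    refine Ideal.mem_span_pair.mpr ⟨-641, 3376 - 225 * ζ + 15 * ζ ^ 2 - ζ ^ 3, ?_⟩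
    push_cast
    ring

lemma span_oneFiftySeven (hΦ : 1 + ζ + ζ ^ 2 + ζ ^ 3 + ζ ^ 4 + ζ ^ 5 + ζ ^ 6 + ζ ^ 7 + ζ ^ 8 + ζ ^ 9 + ζ ^ 10 + ζ ^ 11 + ζ ^ 12 = 0) :
    Ideal.span {((157 : ℕ) : R), ζ - ((75 : ℤ) : R)} = Ideal.span {1 - ζ + ζ ^ 2 + ζ ^ 4} := by
  apply le_antisymm
  · rw [Ideal.span_le, Set.insert_subset_iff, Set.singleton_subset_iff]
    refine ⟨Ideal.mem_span_singleton.mpr ⟨89 + 86 * ζ + 42 * ζ ^ 2 + 77 * ζ ^ 3 + 67 * ζ ^ 4 + 25 * ζ ^ 5 + 37 * ζ ^ 6 + 56 * ζ ^ 7 + 73 * ζ ^ 8 + 113 * ζ ^ 9 + 124 * ζ ^ 10 + 76 * ζ ^ 11, ?_⟩,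
      Ideal.mem_span_singleton.mpr ⟨-43 - 41 * ζ - 20 * ζ ^ 2 - 37 * ζ ^ 3 - 32 * ζ ^ 4 - 12 * ζ ^ 5 - 18 * ζ ^ 6 - 27 * ζ ^ 7 - 35 * ζ ^ 8 - 54 * ζ ^ 9 - 59 * ζ ^ 10 - 36 * ζ ^ 11, ?_⟩⟩
    · push_cast
      linear_combination (-(-68 + 65 * ζ + 48 * ζ ^ 2 + 76 * ζ ^ 3)) * hΦ
    · push_cast
      linear_combination (-(32 - 31 * ζ - 23 * ζ ^ 2 - 36 * ζ ^ 3)) * hΦ
  · rw [Ideal.span_le, Set.singleton_subset_iff]
    refine Ideal.mem_span_pair.mpr ⟨201568, 421949 + 5626 * ζ + 75 * ζ ^ 2 + ζ ^ 3, ?_⟩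
    push_cast
    ring

lemma span_three (hΦ : 1 + ζ + ζ ^ 2 + ζ ^ 3 + ζ ^ 4 + ζ ^ 5 + ζ ^ 6 + ζ ^ 7 + ζ ^ 8 + ζ ^ 9 + ζ ^ 10 + ζ ^ 11 + ζ ^ 12 = 0) :
    Ideal.span {((3 : ℕ) : R), ζ ^ 3 - ζ - 1} = Ideal.span {1 + ζ - ζ ^ 3} := by
  apply le_antisymm
  · rw [Ideal.span_le, Set.insert_subset_iff, Set.singleton_subset_iff]
    refine ⟨Ideal.mem_span_singleton.mpr
      ⟨-1 - ζ ^ 2 - ζ ^ 3 - 2 * ζ ^ 5 - ζ ^ 7 - 2 * ζ ^ 8 + ζ ^ 9 - 3 * ζ ^ 10, ?_⟩,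
      Ideal.mem_span_singleton.mpr ⟨-1, ?_⟩⟩
    · push_cast
      exact three_eq_mul ζ hΦ
    · ring
  · rw [Ideal.span_le, Set.singleton_subset_iff]
    refine Ideal.mem_span_pair.mpr ⟨0, -1, ?_⟩
    ring

end Identities
section Structure

variable (K : Type*) [Field K] [NumberField K] [IsCyclotomicExtension {13} ℚ K]

/-- The chosen primitive 13-th root of unity, as an algebraic integer. -/
noncomputable abbrev zeta13 : 𝓞 K := (IsCyclotomicExtension.zeta_spec 13 ℚ K).toInteger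

lemma minpoly_zeta13 : minpoly ℤ (zeta13 K) = cyclotomic 13 ℤ := by
  rw [← RingOfIntegers.minpoly_coe,
    cyclotomic_eq_minpoly (IsCyclotomicExtension.zeta_spec 13 ℚ K) (by norm_num)]
  rfl

lemma zeta13_sum :
    1 + zeta13 K + zeta13 K ^ 2 + zeta13 K ^ 3 + zeta13 K ^ 4 + zeta13 K ^ 5 + zeta13 K ^ 6
      + zeta13 K ^ 7 + zeta13 K ^ 8 + zeta13 K ^ 9 + zeta13 K ^ 10 + zeta13 K ^ 11
      + zeta13 K ^ 12 = 0 := by
  have h := minpoly.aeval ℤ (zeta13 K)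
  rw [minpoly_zeta13, cyclotomic_prime] at h
  simpa [Finset.sum_range_succ] using h

lemma exponent_zeta13 (q : ℕ) [Fact q.Prime] : ¬ q ∣ RingOfIntegers.exponent (zeta13 K) := by
  rw [RingOfIntegers.exponent_eq_one_iff.mpr
    (IsCyclotomicExtension.Rat.adjoin_singleton_eq_top (IsCyclotomicExtension.zeta_spec 13 ℚ K))]
  exact (Fact.out : q.Prime).not_dvd_one

lemma span_pair_mem_primesOver (q : ℕ) [Fact q.Prime] (Q : ℤ[X])
    (hirr : Irreducible (Q.map (Int.castRingHom (ZMod q))))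
    (hmonic : (Q.map (Int.castRingHom (ZMod q))).Monic)
    (hdvd : Q.map (Int.castRingHom (ZMod q)) ∣ cyclotomic 13 (ZMod q)) :
    span {(q : 𝓞 K), aeval (zeta13 K) Q} ∈ primesOver (span {(q : ℤ)}) (𝓞 K) := by
  have h₁ := exponent_zeta13 K q
  have hQ : Q.map (Int.castRingHom (ZMod q)) ∈ RingOfIntegers.monicFactorsMod (zeta13 K) q := by
    rw [Multiset.mem_toFinset, Polynomial.mem_normalizedFactors_iff
      (map_monic_ne_zero (minpoly.monic (zeta13 K).isIntegral))]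
    refine ⟨hirr, hmonic, ?_⟩
    rw [minpoly_zeta13, map_cyclotomic_int]
    exact hdvd
  rw [← NumberField.Ideal.primesOverSpanEquivMonicFactorsMod_symm_apply_eq_span h₁ hQ]
  exact ((NumberField.Ideal.primesOverSpanEquivMonicFactorsMod h₁).symm ⟨_, hQ⟩).prop

/-- A degree one prime: `(q, ζ - r)` for a root `r` of `Φ₁₃` modulo `q`. -/
lemma span_linear_mem_primesOver (q : ℕ) [Fact q.Prime] (r : ℤ)
    (hr : (q : ℤ) ∣ 1 + r + r ^ 2 + r ^ 3 + r ^ 4 + r ^ 5 + r ^ 6 + r ^ 7 + r ^ 8 + r ^ 9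
      + r ^ 10 + r ^ 11 + r ^ 12) :
    span {(q : 𝓞 K), zeta13 K - (r : 𝓞 K)} ∈ primesOver (span {(q : ℤ)}) (𝓞 K) := by
  have h := span_pair_mem_primesOver K q (X - C r) ?_ ?_ ?_
  · simpa using h
  · rw [Polynomial.map_sub, map_X, map_C]
    exact irreducible_X_sub_C _
  · rw [Polynomial.map_sub, map_X, map_C]
    exact monic_X_sub_C _
  · rw [Polynomial.map_sub, map_X, map_C, dvd_iff_isRoot, IsRoot.def, cyclotomic_prime]
    have h0 : ((1 + r + r ^ 2 + r ^ 3 + r ^ 4 + r ^ 5 + r ^ 6 + r ^ 7 + r ^ 8 + r ^ 9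
      + r ^ 10 + r ^ 11 + r ^ 12 : ℤ) : ZMod q) = 0 :=
      (ZMod.intCast_zmod_eq_zero_iff_dvd _ q).mpr hr
    simpa [Finset.sum_range_succ, eval_finsetSum] using h0

end Structure
section Main

open Module InfinitePlace Nat Real

variable (K : Type*) [Field K] [NumberField K] [IsCyclotomicExtension {13} ℚ K]

lemma minkowski_floor_le :
    ⌊(4 / π) ^ nrComplexPlaces K *
      ((finrank ℚ K)! / (finrank ℚ K) ^ (finrank ℚ K) * √|discr K|)⌋₊ ≤ 306 := by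
  rw [IsCyclotomicExtension.Rat.discr_prime 13 K, IsCyclotomicExtension.finrank (n := 13) K
    (cyclotomic.irreducible_rat (by norm_num)),
    IsCyclotomicExtension.Rat.nrComplexPlaces_eq_totient_div_two 13,
    totient_prime (by norm_num : Nat.Prime 13)]
  rw [show (13 - 1) / 2 = 6 from rfl, show 13 - 1 = 12 from rfl, show 13 - 2 = 11 from rfl]
  have h12 : (12 ! : ℝ) = 479001600 := by
    have : (12 ! : ℕ) = 479001600 := by decide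
    exact_mod_cast this
  have hsqrt : √|(((-1 : ℤ) ^ 6 * (13 : ℤ) ^ 11 : ℤ) : ℝ)| < 1338717 := by
    rw [Real.sqrt_lt' (by norm_num)]
    norm_num
  have hpi : (4 / π : ℝ) < 4 / 3.1415 := by
    apply div_lt_div_of_pos_left (by norm_num) (by norm_num) pi_gt_d4
  have hpi0 : (0 : ℝ) ≤ 4 / π := by positivity
  have h1 : (4 / π : ℝ) ^ 6 < (4 / 3.1415) ^ 6 :=
    pow_lt_pow_left₀ hpi hpi0 (by norm_num)
  refine Nat.lt_succ_iff.mp ((Nat.floor_lt' (by norm_num)).mpr ?_)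
  calc (4 / π : ℝ) ^ 6 * (((12 : ℕ) ! : ℝ) / ((12 : ℕ) : ℝ) ^ 12
          * √|(((-1 : ℤ) ^ 6 * (13 : ℤ) ^ 11 : ℤ) : ℝ)|)
      ≤ (4 / 3.1415) ^ 6 * ((479001600 : ℝ) / 12 ^ 12 * 1338717) := by
        gcongr
        · norm_num [h12]
        · norm_num
  _ < ((306 + 1 : ℕ) : ℝ) := by norm_num

end Main
section Orders

/-- Table of multiplicative orders modulo 13 (index = residue). -/
def ordTable : ℕ → ℕ
  | 1 => 1
  | 2 => 12
  | 3 => 3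
  | 4 => 6
  | 5 => 4
  | 6 => 12
  | 7 => 12
  | 8 => 4
  | 9 => 3
  | 10 => 6
  | 11 => 12
  | 12 => 2
  | _ => 0

lemma orderOf_zmod_thirteen : ∀ x : ZMod 13, x ≠ 0 → orderOf x = ordTable x.val := by
  intro x hx
  rw [orderOf_eq_iff]
  · revert x
    decide
  · revert x
    decide

set_option maxRecDepth 100000 in
lemma pow_order_gt : ∀ p : ℕ, p < 307 → (2 ≤ p ∧
    (p % 2 ≠ 0 ∨ p = 2) ∧ (p % 3 ≠ 0 ∨ p = 3) ∧ (p % 5 ≠ 0 ∨ p = 5) ∧ (p % 7 ≠ 0 ∨ p = 7) ∧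
    (p % 11 ≠ 0 ∨ p = 11) ∧ (p % 13 ≠ 0 ∨ p = 13) ∧ (p % 17 ≠ 0 ∨ p = 17) ∧
    p ≠ 3 ∧ p ≠ 13 ∧ p ≠ 53 ∧ p ≠ 79 ∧ p ≠ 131 ∧ p ≠ 157) →
    306 < p ^ ordTable (p % 13) := by
  decide

end Orders
section Assembly

open Module InfinitePlace Nat Real

variable (K : Type*) [Field K] [NumberField K] [IsCyclotomicExtension {13} ℚ K]

lemma prime_mod_ne_zero_or_eq (p d : ℕ) (hp : p.Prime) (hd : d ≠ 1) : p % d ≠ 0 ∨ p = d := by
  by_cases h : p % d = 0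
  · right
    rcases (Nat.dvd_prime hp).mp (Nat.dvd_of_mod_eq_zero h) with h1 | h1
    · exact absurd h1 hd
    · exact h1.symm
  · left; exact h

lemma no_root_mod_three : ∀ x : ZMod 3, ¬ x ^ 3 - x - 1 = 0 := by decide

lemma three_mem_primesOver :
    span {((3 : ℕ) : 𝓞 K), zeta13 K ^ 3 - zeta13 K - 1} ∈ primesOver (span {((3 : ℕ) : ℤ)}) (𝓞 K) := by
  have : Fact (Nat.Prime 3) := ⟨by norm_num⟩
  have hmap : (X ^ 3 - X - 1 : ℤ[X]).map (Int.castRingHom (ZMod 3)) = X ^ 3 - X - 1 := by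
    simp
  have h := span_pair_mem_primesOver K 3 (X ^ 3 - X - 1) ?_ ?_ ?_
  · simpa using h
  · rw [hmap]
    apply irreducible_of_degree_le_three_of_not_isRoot
    · have : (X ^ 3 - X - 1 : (ZMod 3)[X]).natDegree = 3 := by compute_degree!
      rw [this]; decide
    · intro x
      simp only [IsRoot.def, eval_sub, eval_pow, eval_X, eval_one]
      exact no_root_mod_three x
  · rw [hmap]
    monicity!
  · rw [hmap, cyclotomic_prime]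
    have h3 : (3 : (ZMod 3)[X]) = 0 := by
      have : ((3 : ℕ) : (ZMod 3)[X]) = 0 := CharP.cast_eq_zero _ 3
      exact_mod_cast this
    refine ⟨-1 - X ^ 2 - X ^ 3 + X ^ 5 - X ^ 7 + X ^ 8 + X ^ 9, ?_⟩
    simp only [Finset.sum_range_succ, Finset.sum_range_zero]
    linear_combination (X ^ 5 + X ^ 6 + X ^ 9 + X ^ 10 : (ZMod 3)[X]) * h3

/-- The ring of integers of the `13`-th cyclotomic field is a principal ideal domain. -/
theorem thirteen_pid : IsPrincipalIdealRing (𝓞 K) := by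
  have hG : IsGalois ℚ K := IsCyclotomicExtension.isGalois {13} ℚ K
  have hM := minkowski_floor_le K
  refine RingOfIntegers.isPrincipalIdealRing_of_isPrincipal_of_lt_or_isPrincipal_of_mem_primesOver_of_mem_Icc
    (fun p hp hpp => ?_)
  have hp306 : p ≤ 306 := (Finset.mem_Icc.mp hp).2.trans hM
  have : Fact p.Prime := ⟨hpp⟩
  have hΦ := zeta13_sum K
  by_cases h13 : p = 13
  · subst h13
    have hζ := IsCyclotomicExtension.zeta_spec 13 ℚ K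
    refine ⟨span {zeta13 K - 1}, ⟨?_, ?_⟩, Or.inr ⟨⟨zeta13 K - 1, rfl⟩⟩⟩
    · exact IsCyclotomicExtension.Rat.isPrime_span_zeta_sub_one' 13 hζ
    · have := IsCyclotomicExtension.Rat.liesOver_span_zeta_sub_one 13 0 (K := K)
        (ζ := IsCyclotomicExtension.zeta 13 ℚ K) (by simp [hζ])
      simpa using this
  by_cases h3 : p = 3
  · subst h3
    refine ⟨_, three_mem_primesOver K, Or.inr ?_⟩
    rw [span_three _ hΦ]
    exact ⟨⟨_, rfl⟩⟩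
  by_cases h53 : p = 53
  · subst h53
    refine ⟨_, span_linear_mem_primesOver K 53 (-17) (by norm_num), Or.inr ?_⟩
    rw [span_fiftyThree _ hΦ]
    exact ⟨⟨_, rfl⟩⟩
  by_cases h79 : p = 79
  · subst h79
    refine ⟨_, span_linear_mem_primesOver K 79 (-15) (by norm_num), Or.inr ?_⟩
    rw [span_seventyNine _ hΦ]
    exact ⟨⟨_, rfl⟩⟩
  by_cases h131 : p = 131
  · subst h131
    refine ⟨_, span_linear_mem_primesOver K 131 (-51) (by norm_num), Or.inr ?_⟩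
    rw [span_oneThirtyOne _ hΦ]
    exact ⟨⟨_, rfl⟩⟩
  by_cases h157 : p = 157
  · subst h157
    refine ⟨_, span_linear_mem_primesOver K 157 75 (by norm_num), Or.inr ?_⟩
    rw [span_oneFiftySeven _ hΦ]
    exact ⟨⟨_, rfl⟩⟩
  obtain ⟨⟨P, hP1, hP2⟩⟩ := (span {(p : ℤ)}).nonempty_primesOver (S := 𝓞 K)
  refine ⟨P, ⟨hP1, hP2⟩, Or.inl ?_⟩
  have hndvd : ¬ p ∣ 13 := by
    intro h
    rcases (Nat.dvd_prime (by norm_num : Nat.Prime 13)).mp h with h1 | h1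
    · exact hpp.one_lt.ne' h1
    · exact h13 h1
  have hne : ((p : ℕ) : ZMod 13) ≠ 0 := by
    rw [Ne, ZMod.natCast_eq_zero_iff]
    intro h
    rcases (Nat.dvd_prime hpp).mp h with h1 | h1
    · norm_num at h1
    · exact h13 h1.symm
  rw [IsCyclotomicExtension.Rat.inertiaDeg_eq_of_not_dvd p K P (m := 13) hndvd,
    orderOf_zmod_thirteen _ hne, ZMod.val_natCast]
  refine lt_of_le_of_lt hM (pow_order_gt p (by omega) ⟨hpp.two_le,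
    prime_mod_ne_zero_or_eq p 2 hpp (by norm_num), prime_mod_ne_zero_or_eq p 3 hpp (by norm_num),
    prime_mod_ne_zero_or_eq p 5 hpp (by norm_num), prime_mod_ne_zero_or_eq p 7 hpp (by norm_num),
    prime_mod_ne_zero_or_eq p 11 hpp (by norm_num), prime_mod_ne_zero_or_eq p 13 hpp (by norm_num),
    prime_mod_ne_zero_or_eq p 17 hpp (by norm_num), h3, h13, h53, h79, h131, h157⟩)

end Assembly
section Seven

open Module InfinitePlace Nat Real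

variable (K : Type*) [Field K] [NumberField K] [IsCyclotomicExtension {7} ℚ K]

lemma minkowski_floor_le_seven :
    ⌊(4 / π) ^ nrComplexPlaces K *
      ((finrank ℚ K)! / (finrank ℚ K) ^ (finrank ℚ K) * √|discr K|)⌋₊ ≤ 4 := by
  have : Fact (Nat.Prime 7) := ⟨by norm_num⟩
  rw [IsCyclotomicExtension.Rat.discr_prime 7 K, IsCyclotomicExtension.finrank (n := 7) K
    (cyclotomic.irreducible_rat (by norm_num)),
    IsCyclotomicExtension.Rat.nrComplexPlaces_eq_totient_div_two 7,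
    totient_prime (by norm_num : Nat.Prime 7)]
  rw [show (7 - 1) / 2 = 3 from rfl, show 7 - 1 = 6 from rfl, show 7 - 2 = 5 from rfl]
  have h6 : (6 ! : ℝ) = 720 := by
    have : (6 ! : ℕ) = 720 := by decide
    exact_mod_cast this
  have hsqrt : √|(((-1 : ℤ) ^ 3 * (7 : ℤ) ^ 5 : ℤ) : ℝ)| < 130 := by
    rw [Real.sqrt_lt' (by norm_num)]
    norm_num
  have hpi : (4 / π : ℝ) < 4 / 3 := by
    apply div_lt_div_of_pos_left (by norm_num) (by norm_num) pi_gt_three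
  have hpi0 : (0 : ℝ) ≤ 4 / π := by positivity
  have h1 : (4 / π : ℝ) ^ 3 < (4 / 3) ^ 3 :=
    pow_lt_pow_left₀ hpi hpi0 (by norm_num)
  refine Nat.lt_succ_iff.mp ((Nat.floor_lt' (by norm_num)).mpr ?_)
  calc (4 / π : ℝ) ^ 3 * (((6 : ℕ) ! : ℝ) / ((6 : ℕ) : ℝ) ^ 6
          * √|(((-1 : ℤ) ^ 3 * (7 : ℤ) ^ 5 : ℤ) : ℝ)|)
      ≤ (4 / 3) ^ 3 * ((720 : ℝ) / 6 ^ 6 * 130) := by
        gcongr
        · norm_num [h6]
        · norm_num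
  _ < ((4 + 1 : ℕ) : ℝ) := by norm_num

lemma orderOf_two_zmod_seven : orderOf ((2 : ℕ) : ZMod 7) = 3 := by
  rw [orderOf_eq_iff (by norm_num)]
  decide

lemma orderOf_three_zmod_seven : orderOf ((3 : ℕ) : ZMod 7) = 6 := by
  rw [orderOf_eq_iff (by norm_num)]
  decide

/-- The ring of integers of the `7`-th cyclotomic field is a principal ideal domain. -/
theorem seven_pid : IsPrincipalIdealRing (𝓞 K) := by
  have hG : IsGalois ℚ K := IsCyclotomicExtension.isGalois {7} ℚ K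
  have hM := minkowski_floor_le_seven K
  refine RingOfIntegers.isPrincipalIdealRing_of_isPrincipal_of_lt_or_isPrincipal_of_mem_primesOver_of_mem_Icc
    (fun p hp hpp => ?_)
  have hp4 : p ≤ 4 := (Finset.mem_Icc.mp hp).2.trans hM
  have : Fact p.Prime := ⟨hpp⟩
  obtain ⟨⟨P, hP1, hP2⟩⟩ := (span {(p : ℤ)}).nonempty_primesOver (S := 𝓞 K)
  refine ⟨P, ⟨hP1, hP2⟩, Or.inl (lt_of_le_of_lt hM ?_)⟩
  have h23 : p = 2 ∨ p = 3 := by
    have h2 := hpp.two_le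
    interval_cases p
    · exact Or.inl rfl
    · exact Or.inr rfl
    · norm_num at hpp
  rcases h23 with rfl | rfl
  · rw [IsCyclotomicExtension.Rat.inertiaDeg_eq_of_not_dvd 2 K P (m := 7) (by norm_num),
      orderOf_two_zmod_seven]
    norm_num
  · rw [IsCyclotomicExtension.Rat.inertiaDeg_eq_of_not_dvd 3 K P (m := 7) (by norm_num),
      orderOf_three_zmod_seven]
    norm_num

end Seven

end Fermat.Agent.S10.helper2110
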