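/-
helper2590: conditional wiring for S10.

`result_of_caseII` : S10 follows from Case II of Fermat's Last Theorem for the exponents
5, 7, 13 (Case I is `Fermat.Agent.S10.helper312.caseI`, already proved).

`result_of_pid_kummer` : S10 follows from
  * a generic Case II descent (`GenericCaseII`, the interface of claim #85),
  * principality of the rings of integers of the 7th and 13th cyclotomic fields,
  * Kummer's lemma (`KummerLemma`) for 5, 7, 13.
-/
import Fermat.Prelude.Def_FLTPrelim_CofixedLine
import Fermat.Agent.S10.helper312_CaseI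

set_option autoImplicit false

open NumberField

namespace Fermat.Agent.S10.helper2590

/-- Kummer's lemma for the prime `p` and the number field `K` (intended: `K = ℚ(ζ_p)`):
a unit congruent to a rational integer modulo `p` is a `p`-th power. -/
def KummerLemma (p : ℕ) (K : Type) [Field K] [NumberField K] : Prop :=
  ∀ u : (𝓞 K)ˣ, ∀ n : ℤ, (p : 𝓞 K) ∣ (u : 𝓞 K) - n → ∃ v : (𝓞 K)ˣ, u = v ^ p

/-- Case II of FLT for the exponent `p`. -/
def CaseII (p : ℕ) : Prop :=
  ∀ a b c : ℤ, IsCoprime a b → a * b * c ≠ 0 → (p : ℤ) ∣ a * b * c → a ^ p + b ^ p ≠ c ^ p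

/-- The generic Case II descent: PID + Kummer's lemma imply Case II. -/
def GenericCaseII : Prop :=
  ∀ (p : ℕ), p.Prime → 5 ≤ p → ∀ (K : Type) [Field K] [NumberField K]
    [IsCyclotomicExtension {p} ℚ K] [IsPrincipalIdealRing (𝓞 K)],
    KummerLemma p K → CaseII p

/-- No Frey package with `p ∈ {5, 7, 13}`, given Case II for these exponents. -/
theorem false_of_caseII (h5 : CaseII 5) (h7 : CaseII 7) (h13 : CaseII 13)
    (P : FreyPackage) (hp : P.p = 5 ∨ P.p = 7 ∨ P.p = 13) : False := by
  have hab : IsCoprime P.a P.b := Int.isCoprime_iff_gcd_eq_one.mpr (by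
    have h := P.hgcdab
    have h' : ((Int.gcd P.a P.b : ℕ) : ℤ) = 1 := h
    exact_mod_cast h')
  have hI : (P.p : ℤ) ∣ P.a * P.b * P.c :=
    Fermat.Agent.S10.helper312.caseI (by tauto) hab P.hFLT
  have hII : CaseII P.p := by
    rcases hp with h | h | h <;> rw [h] <;> assumption
  exact hII P.a P.b P.c hab P.habc0 hI P.hFLT

open WeierstrassCurve WeierstrassCurve.Affine WeierstrassCurve.Affine.Point in
/-- S10 from Case II for the exponents 5, 7, 13. -/
theorem result_of_caseII (h5 : CaseII 5) (h7 : CaseII 7) (h13 : CaseII 13)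
    (P : FreyPackage) (hp : P.p = 5 ∨ P.p = 7 ∨ P.p = 13) :
    ¬ HasGaloisStableCofixedLine (K := AlgebraicClosure ℚ) ℚ P.freyCurve P.p :=
  (false_of_caseII h5 h7 h13 P hp).elim

/-- Case II for `p` from the generic descent, principality and Kummer's lemma,
using the model `CyclotomicField p ℚ`. -/
theorem caseII_of_generic (hG : GenericCaseII) (p : ℕ) (hp : p.Prime) (hp5 : 5 ≤ p)
    (hpid : IsPrincipalIdealRing (𝓞 (CyclotomicField p ℚ)))
    (hK : KummerLemma p (CyclotomicField p ℚ)) : CaseII p := by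
  have : NeZero p := ⟨hp.ne_zero⟩
  have : IsCyclotomicExtension {p} ℚ (CyclotomicField p ℚ) :=
    CyclotomicField.isCyclotomicExtension p ℚ
  exact hG p hp hp5 (CyclotomicField p ℚ) hK

open WeierstrassCurve WeierstrassCurve.Affine WeierstrassCurve.Affine.Point in
/-- S10 from the generic Case II descent + PID for 7, 13 + Kummer's lemma for 5, 7, 13. -/
theorem result_of_pid_kummer (hG : GenericCaseII)
    (hpid7 : IsPrincipalIdealRing (𝓞 (CyclotomicField 7 ℚ)))
    (hpid13 : IsPrincipalIdealRing (𝓞 (CyclotomicField 13 ℚ)))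
    (hK5 : KummerLemma 5 (CyclotomicField 5 ℚ))
    (hK7 : KummerLemma 7 (CyclotomicField 7 ℚ))
    (hK13 : KummerLemma 13 (CyclotomicField 13 ℚ))
    (P : FreyPackage) (hp : P.p = 5 ∨ P.p = 7 ∨ P.p = 13) :
    ¬ HasGaloisStableCofixedLine (K := AlgebraicClosure ℚ) ℚ P.freyCurve P.p :=
  have : IsCyclotomicExtension {5} ℚ (CyclotomicField 5 ℚ) :=
    CyclotomicField.isCyclotomicExtension 5 ℚ
  result_of_caseII
    (caseII_of_generic hG 5 (by norm_num) le_rfl
      (IsCyclotomicExtension.Rat.five_pid (CyclotomicField 5 ℚ)) hK5)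
    (caseII_of_generic hG 7 (by norm_num) (by norm_num) hpid7 hK7)
    (caseII_of_generic hG 13 (by norm_num) (by norm_num) hpid13 hK13) P hp

end Fermat.Agent.S10.helper2590
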