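/-
helper312: Case I of Fermat's Last Theorem for the exponents 5, 7, 11, 13
(Sophie Germain's theorem with auxiliary primes 11, 29, 23, 53).

Main results (namespace `Fermat.Agent.S10.helper312`):
* `sophie_germain` : the general criterion.
* `caseI` : for `p ∈ {5, 7, 11, 13}`, `IsCoprime a b` and `a ^ p + b ^ p = c ^ p`
  force `(p : ℤ) ∣ a * b * c`.
-/
import Mathlib

set_option autoImplicit false

namespace Fermat.Agent.S10.helper312

open Finset

/-- The cofactor `∑_{i<p} y^i (-z)^(p-1-i)` of `y + z` in `y^p + z^p` (`p` odd). -/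
def cof (p : ℕ) (y z : ℤ) : ℤ := ∑ i ∈ range p, y ^ i * (-z) ^ (p - 1 - i)

lemma cof_mul {p : ℕ} (hp : Odd p) (y z : ℤ) : cof p y z * (y + z) = y ^ p + z ^ p := by
  have h := geom_sum₂_mul y (-z) p
  rw [hp.neg_pow] at h
  simpa [cof, sub_neg_eq_add] using h

lemma add_dvd_cof_sub (p : ℕ) (y z : ℤ) : y + z ∣ cof p y z - p * y ^ (p - 1) := by
  have h1 : (p : ℤ) * y ^ (p - 1) = ∑ i ∈ range p, y ^ i * y ^ (p - 1 - i) := by
    rw [geom_sum₂_self]
  rw [h1, cof, ← Finset.sum_sub_distrib]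
  refine Finset.dvd_sum fun i _ => ?_
  rw [← mul_sub]
  refine Dvd.dvd.mul_left ?_ _
  have h2 : -z - y ∣ (-z) ^ (p - 1 - i) - y ^ (p - 1 - i) := sub_dvd_pow_sub_pow _ _ _
  have h3 : y + z ∣ -z - y := ⟨-1, by ring⟩
  exact h3.trans h2

lemma isCoprime_add_cof {p : ℕ} (hp : p.Prime) {y z : ℤ} (hyz : IsCoprime y z)
    (hpyz : ¬ (p : ℤ) ∣ y + z) : IsCoprime (y + z) (cof p y z) := by
  refine isCoprime_of_prime_dvd ?_ ?_
  · rintro ⟨h0, -⟩
    exact hpyz (h0 ▸ dvd_zero _)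
  · intro r hr hr1 hr2
    have h3 : r ∣ (p : ℤ) * y ^ (p - 1) := by
      have h4 : r ∣ cof p y z - p * y ^ (p - 1) := hr1.trans (add_dvd_cof_sub p y z)
      have h5 := dvd_sub hr2 h4
      simpa using h5
    rcases hr.dvd_or_dvd h3 with h6 | h6
    · -- r ∣ p, so r is associated to p
      have hpp : Prime (p : ℤ) := Nat.prime_iff_prime_int.mp hp
      have hass : Associated r (p : ℤ) := hr.associated_of_dvd hpp h6
      exact hpyz (hass.symm.dvd.trans hr1)
    · have hry : r ∣ y := hr.dvd_of_dvd_pow h6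
      have hrz : r ∣ z := by
        have := dvd_sub hr1 hry
        simpa using this
      exact hr.not_isUnit (hyz.isUnit_of_dvd' hry hrz)

/-- Key step of Sophie Germain's theorem: the auxiliary prime `q` cannot divide `x`. -/
lemma key {p q : ℕ} (hp : p.Prime) (hodd : Odd p) (hq : q.Prime)
    (h1 : ∀ u v w : ZMod q, u ^ p + v ^ p + w ^ p = 0 → u * v * w = 0)
    (h2 : ∀ w : ZMod q, w ^ p ≠ (p : ZMod q))
    {x y z : ℤ} (hxy : IsCoprime x y) (hyz : IsCoprime y z) (hzx : IsCoprime z x)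
    (h : x ^ p + y ^ p + z ^ p = 0)
    (hpx : ¬ (p : ℤ) ∣ x) (hpy : ¬ (p : ℤ) ∣ y) (hpz : ¬ (p : ℤ) ∣ z)
    (hqx : (q : ℤ) ∣ x) : False := by
  have : Fact q.Prime := ⟨hq⟩
  have hpp : Prime (p : ℤ) := Nat.prime_iff_prime_int.mp hp
  have hqq : Prime (q : ℤ) := Nat.prime_iff_prime_int.mp hq
  have hp0 : p ≠ 0 := hp.ne_zero
  -- `p` does not divide the pairwise sums
  have hsum : ∀ {u v w : ℤ}, u ^ p + v ^ p + w ^ p = 0 → ¬ (p : ℤ) ∣ u → ¬ (p : ℤ) ∣ v + w := by
    intro u v w huvw hu hvw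
    have h3 : (p : ℤ) ∣ v ^ p + w ^ p := hvw.trans (hodd.add_dvd_pow_add_pow v w)
    have h4 : (p : ℤ) ∣ u ^ p := by
      have h5 : u ^ p = -(v ^ p + w ^ p) := by linarith
      rw [h5]
      exact (dvd_neg).mpr h3
    exact hu (hpp.dvd_of_dvd_pow h4)
  -- each pairwise sum is a `p`-th power, as is the cofactor
  have hpow : ∀ {u v w : ℤ}, u ^ p + v ^ p + w ^ p = 0 → ¬ (p : ℤ) ∣ u → IsCoprime v w →
      (∃ a : ℤ, v + w = a ^ p) ∧ ∃ α : ℤ, cof p v w = α ^ p := by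
    intro u v w huvw hu hvw
    have hcop := isCoprime_add_cof hp hvw (hsum huvw hu)
    have hmul : (v + w) * cof p v w = (-u) ^ p := by
      rw [mul_comm, cof_mul hodd, hodd.neg_pow]
      linarith
    exact Int.eq_pow_of_mul_eq_pow_odd hcop hodd hmul
  obtain ⟨⟨a, ha⟩, ⟨α, hα⟩⟩ := hpow h hpx hyz
  obtain ⟨⟨b, hb⟩, -⟩ := hpow (u := y) (v := z) (w := x) (by linarith) hpy hzx
  obtain ⟨⟨c, hc⟩, -⟩ := hpow (u := z) (v := x) (w := y) (by linarith) hpz hxy
  -- reduce mod q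
  have hx0 : (x : ZMod q) = 0 := (ZMod.intCast_zmod_eq_zero_iff_dvd x q).mpr hqx
  have hy0 : (y : ZMod q) ≠ 0 := by
    intro hy0
    have hqy : (q : ℤ) ∣ y := (ZMod.intCast_zmod_eq_zero_iff_dvd y q).mp hy0
    exact hqq.not_isUnit (hxy.isUnit_of_dvd' hqx hqy)
  have hz0 : (z : ZMod q) ≠ 0 := by
    intro hz0
    have hqz : (q : ℤ) ∣ z := (ZMod.intCast_zmod_eq_zero_iff_dvd z q).mp hz0
    exact hqq.not_isUnit (hzx.isUnit_of_dvd' hqz hqx)
  have ha' : (y : ZMod q) + z = (a : ZMod q) ^ p := by exact_mod_cast congrArg (Int.cast : ℤ → ZMod q) ha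
  have hb' : (z : ZMod q) + x = (b : ZMod q) ^ p := by exact_mod_cast congrArg (Int.cast : ℤ → ZMod q) hb
  have hc' : (x : ZMod q) + y = (c : ZMod q) ^ p := by exact_mod_cast congrArg (Int.cast : ℤ → ZMod q) hc
  have hα' : ((cof p y z : ℤ) : ZMod q) = (α : ZMod q) ^ p := by
    exact_mod_cast congrArg (Int.cast : ℤ → ZMod q) hα
  rw [hx0, add_zero] at hb'
  rw [hx0, zero_add] at hc'
  have hb0 : (b : ZMod q) ≠ 0 := by
    intro hb0
    rw [hb0, zero_pow hp0] at hb'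
    exact hz0 hb'
  have hc0 : (c : ZMod q) ≠ 0 := by
    intro hc0
    rw [hc0, zero_pow hp0] at hc'
    exact hy0 hc'
  have habc : (b : ZMod q) ^ p + (c : ZMod q) ^ p + (-(a : ZMod q)) ^ p = 0 := by
    rw [hodd.neg_pow, ← ha', ← hb', ← hc']
    ring
  have ha0 : (a : ZMod q) = 0 := by
    have h3 := h1 _ _ _ habc
    rcases mul_eq_zero.mp h3 with h4 | h4
    · rcases mul_eq_zero.mp h4 with h5 | h5
      · exact absurd h5 hb0
      · exact absurd h5 hc0
    · exact neg_eq_zero.mp h4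
  -- hence y + z ≡ 0 mod q and cof ≡ p * y^(p-1)
  have hyz0 : (y : ZMod q) + z = 0 := by rw [ha', ha0, zero_pow hp0]
  have hqyz : (q : ℤ) ∣ y + z := by
    rw [← ZMod.intCast_zmod_eq_zero_iff_dvd]
    exact_mod_cast hyz0
  have hcof : ((cof p y z : ℤ) : ZMod q) = (p : ZMod q) * (y : ZMod q) ^ (p - 1) := by
    have h3 : (q : ℤ) ∣ cof p y z - p * y ^ (p - 1) := hqyz.trans (add_dvd_cof_sub p y z)
    have h4 := (ZMod.intCast_zmod_eq_zero_iff_dvd _ q).mpr h3
    push_cast at h4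
    exact sub_eq_zero.mp h4
  -- p is a p-th power mod q: contradiction
  have hfin : ((α : ZMod q) * ((c : ZMod q) ^ (p - 1))⁻¹) ^ p = (p : ZMod q) := by
    have h5 : ((c : ZMod q) ^ (p * (p - 1))) ≠ 0 := pow_ne_zero _ hc0
    rw [mul_pow, ← hα', hcof, hc', inv_pow, ← pow_mul, ← pow_mul, mul_comm (p - 1) p, mul_assoc,
      mul_inv_cancel₀ h5, mul_one]
  exact h2 _ hfin

/-- **Sophie Germain's theorem** (general criterion). -/
theorem sophie_germain {p q : ℕ} (hp : p.Prime) (hodd : Odd p) (hq : q.Prime)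
    (h1 : ∀ u v w : ZMod q, u ^ p + v ^ p + w ^ p = 0 → u * v * w = 0)
    (h2 : ∀ w : ZMod q, w ^ p ≠ (p : ZMod q))
    {x y z : ℤ} (hxy : IsCoprime x y) (hyz : IsCoprime y z) (hzx : IsCoprime z x)
    (h : x ^ p + y ^ p + z ^ p = 0) : (p : ℤ) ∣ x * y * z := by
  have : Fact q.Prime := ⟨hq⟩
  by_contra hcon
  have hpx : ¬ (p : ℤ) ∣ x := fun h' => hcon ((h'.mul_right y).mul_right z)
  have hpy : ¬ (p : ℤ) ∣ y := fun h' => hcon ((h'.mul_left x).mul_right z)
  have hpz : ¬ (p : ℤ) ∣ z := fun h' => hcon (h'.mul_left (x * y))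
  have h3 : (x : ZMod q) ^ p + (y : ZMod q) ^ p + (z : ZMod q) ^ p = 0 := by
    exact_mod_cast congrArg (Int.cast : ℤ → ZMod q) h
  have h4 := h1 _ _ _ h3
  rcases mul_eq_zero.mp h4 with h5 | h5
  · rcases mul_eq_zero.mp h5 with h6 | h6
    · exact key hp hodd hq h1 h2 hxy hyz hzx h hpx hpy hpz
        ((ZMod.intCast_zmod_eq_zero_iff_dvd x q).mp h6)
    · exact key hp hodd hq h1 h2 hyz hzx hxy (by linarith) hpy hpz hpx
        ((ZMod.intCast_zmod_eq_zero_iff_dvd y q).mp h6)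
  · exact key hp hodd hq h1 h2 hzx hxy hyz (by linarith) hpz hpx hpy
      ((ZMod.intCast_zmod_eq_zero_iff_dvd z q).mp h5)

/-- If the `p`-th powers mod `q` lie in a finite set `S` no three of whose nonzero elements sum
to zero, then the first Sophie Germain condition holds. -/
lemma cond_one_of_vals {p q : ℕ} [Fact q.Prime] (hp0 : p ≠ 0) (S : Finset (ZMod q))
    (hS : ∀ x : ZMod q, x ^ p ∈ S)
    (hsum : ∀ a ∈ S, ∀ b ∈ S, ∀ c ∈ S, a + b + c = 0 → a = 0 ∨ b = 0 ∨ c = 0) :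
    ∀ u v w : ZMod q, u ^ p + v ^ p + w ^ p = 0 → u * v * w = 0 := by
  intro u v w h
  rcases hsum _ (hS u) _ (hS v) _ (hS w) h with h' | h' | h'
  · rw [pow_eq_zero_iff hp0] at h'; simp [h']
  · rw [pow_eq_zero_iff hp0] at h'; simp [h']
  · rw [pow_eq_zero_iff hp0] at h'; simp [h']

lemma cond_two_of_vals {p q : ℕ} (S : Finset (ZMod q))
    (hS : ∀ x : ZMod q, x ^ p ∈ S) (hpS : (p : ZMod q) ∉ S) :
    ∀ w : ZMod q, w ^ p ≠ (p : ZMod q) := fun w hw => hpS (hw ▸ hS w)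

instance fact_prime_11 : Fact (Nat.Prime 11) := ⟨by norm_num⟩
instance fact_prime_23 : Fact (Nat.Prime 23) := ⟨by norm_num⟩
instance fact_prime_29 : Fact (Nat.Prime 29) := ⟨by norm_num⟩
instance fact_prime_53 : Fact (Nat.Prime 53) := ⟨by norm_num⟩

lemma vals_5 : ∀ x : ZMod 11, x ^ 5 ∈ ({0, 1, -1} : Finset (ZMod 11)) := by decide
lemma vals_7 : ∀ x : ZMod 29, x ^ 7 ∈ ({0, 1, -1, 12, 17} : Finset (ZMod 29)) := by decide
lemma vals_11 : ∀ x : ZMod 23, x ^ 11 ∈ ({0, 1, -1} : Finset (ZMod 23)) := by decide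
set_option maxRecDepth 100000 in
lemma vals_13 : ∀ x : ZMod 53, x ^ 13 ∈ ({0, 1, -1, 23, 30} : Finset (ZMod 53)) := by decide

set_option maxRecDepth 100000 in
/-- Sophie Germain triple form of Case I for `p ∈ {5, 7, 11, 13}`. -/
theorem caseI_sym {p : ℕ} (hp : p = 5 ∨ p = 7 ∨ p = 11 ∨ p = 13) {x y z : ℤ}
    (hxy : IsCoprime x y) (hyz : IsCoprime y z) (hzx : IsCoprime z x)
    (h : x ^ p + y ^ p + z ^ p = 0) : (p : ℤ) ∣ x * y * z := by
  rcases hp with rfl | rfl | rfl | rfl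
  · exact sophie_germain (q := 11) (by norm_num) (by decide) (by norm_num)
      (cond_one_of_vals (by norm_num) _ vals_5 (by decide))
      (cond_two_of_vals _ vals_5 (by decide)) hxy hyz hzx h
  · exact sophie_germain (q := 29) (by norm_num) (by decide) (by norm_num)
      (cond_one_of_vals (by norm_num) _ vals_7 (by decide))
      (cond_two_of_vals _ vals_7 (by decide)) hxy hyz hzx h
  · exact sophie_germain (q := 23) (by norm_num) (by decide) (by norm_num)
      (cond_one_of_vals (by norm_num) _ vals_11 (by decide))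
      (cond_two_of_vals _ vals_11 (by decide)) hxy hyz hzx h
  · exact sophie_germain (q := 53) (by norm_num) (by decide) (by norm_num)
      (cond_one_of_vals (by norm_num) _ vals_13 (by decide))
      (cond_two_of_vals _ vals_13 (by decide)) hxy hyz hzx h

/-- **Case I of FLT for `p ∈ {5, 7, 11, 13}`**: a coprime solution of `a^p + b^p = c^p`
has `p ∣ a * b * c`. -/
theorem caseI {p : ℕ} (hp : p = 5 ∨ p = 7 ∨ p = 11 ∨ p = 13) {a b c : ℤ}
    (hab : IsCoprime a b) (h : a ^ p + b ^ p = c ^ p) : (p : ℤ) ∣ a * b * c := by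
  have hp0 : 0 < p := by rcases hp with rfl | rfl | rfl | rfl <;> norm_num
  have hodd : Odd p := by rcases hp with rfl | rfl | rfl | rfl <;> decide
  have hac : IsCoprime a c := by
    rw [← IsCoprime.pow_right_iff hp0, ← h]
    have h3 : IsCoprime a (b ^ p) := hab.pow_right
    have h4 : a ^ p + b ^ p = b ^ p + a * a ^ (p - 1) := by
      rw [← pow_succ', Nat.sub_add_cancel hp0, add_comm]
    rw [h4]
    exact h3.add_mul_left_right _
  have hbc : IsCoprime b c := by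
    rw [← IsCoprime.pow_right_iff hp0, ← h]
    have h3 : IsCoprime b (a ^ p) := hab.symm.pow_right
    have h4 : a ^ p + b ^ p = a ^ p + b * b ^ (p - 1) := by
      rw [← pow_succ', Nat.sub_add_cancel hp0]
    rw [h4]
    exact h3.add_mul_left_right _
  have h3 : a ^ p + b ^ p + (-c) ^ p = 0 := by rw [hodd.neg_pow, h]; ring
  have h4 := caseI_sym hp hab hbc.neg_right hac.symm.neg_left h3
  have h5 : a * b * -c = -(a * b * c) := by ring
  rw [h5] at h4
  exact (dvd_neg).mp h4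

end Fermat.Agent.S10.helper312
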